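import Fermat.Agent.S38T.IA.Hecke.Spec3
import Fermat.Agent.S38.H681.IAFreeOdd
import Fermat.Agent.S38.H681.IANontrivOdd

/-!
# S59 end-game, cell (B2) HECKE-T: the leaves IA-FREE and IA-NONTRIV  (helper681)

`iaFree_T_h681 : IAFreeStatement_T` and `iaNontriv_T_h681 : IANontrivStatement_T`, VERBATIM
(`S38T/IA/Hecke/Spec3.lean`, helper3): every prime `3 ≤ p`, every type `ty`.

* IA-FREE: `h681_free_of_pkg` (generic index type, any `ty`, any base level) at
  `N₀ = wilesLevel p ty Smin Smin`, family `Sum.elim pv qv`; at `p = 3` the hypothesis (Ell) of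
  `MFree.free` is replaced by the auxiliary prime `r ≡ 2 mod 3` (`MFree.H779.freeAux3`,
  `Aut.H186.exists_aux3_tset_h186`).
* IA-NONTRIV: `h681_locPart_free_pos` at the level `ribetLevelT p ty Smin Piv`.
-/

set_option autoImplicit false

open Polynomial IsLocalRing CongruenceSubgroup
open scoped MatrixGroups

namespace Fermat.Agent.S38.H681

open Fermat.Agent.S59.Arch Fermat.Agent.S59.TW.H959 Fermat.Agent.S59.TW
open Fermat.Agent.S59.TW.H653 Fermat.Agent.S59.TW.Aut
open Fermat.Agent.S38.IA Fermat.Agent.S38.IA.Hecke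

/-- **IA-FREE of type `ty`**, verbatim. -/
theorem iaFree_T_h681 : IAFreeStatement_T := by
  intro p _ _hp3 𝒪 _ _ _ _ _ _ ρbar Smin h ty _hty Piv hPiv k pv hpv hpvPiv n r qv hq _ PQ α _hα
    V hV
  classical
  have hp : p.Prime := Fact.out
  have hN₀ : wilesLevel p ty Smin Smin ≠ 0 := wilesLevel_ne_zero hp h.hSmin h.hSmin
  have hprime := h681_prime_sumElim hPiv hpvPiv hq
  have hinj := h681_injective_sumElim hpv hpvPiv hq
  obtain ⟨d, hd⟩ := h681_free_of_pkg h PQ (wilesLevel p ty Smin Smin) (Sum.elim pv qv)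
    hN₀ hinj hprime hV
  refine ⟨d, fun g₁ g₂ hg₁ hg₂ => ?_⟩
  have hg : ∀ s, orderOf (pairU g₁ g₂ s) = Sum.elim pv qv s - 1 := by
    rintro (i | j)
    · exact hg₁ i
    · exact hg₂ j
  let ψ := (Equiv.sumPiEquivProdPi
    (fun s : Fin k ⊕ Fin r => Fin (p ^ padicValNat p (Sum.elim pv qv s - 1)))).symm
  have hbij : Function.Bijective (fun e : (∀ i : Fin k, Fin (p ^ padicValNat p (pv i - 1))) ×
      (∀ j : Fin r, Fin (p ^ padicValNat p (qv j - 1))) =>
      (QuotientGroup.mk (pairU (fun i => g₁ i ^ (e.1 i : ℕ)) (fun j => g₂ j ^ (e.2 j : ℕ))) :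
        GDelta p (Sum.elim pv qv))) := by
    have h1 := (h681_gEpsIdx_bijective p (Sum.elim pv qv) hprime (pairU g₁ g₂) hg).comp
      ψ.bijective
    have h2 : (gEpsIdx p (Sum.elim pv qv) (pairU g₁ g₂)) ∘ ψ =
        (fun e : (∀ i : Fin k, Fin (p ^ padicValNat p (pv i - 1))) ×
          (∀ j : Fin r, Fin (p ^ padicValNat p (qv j - 1))) =>
          (QuotientGroup.mk (pairU (fun i => g₁ i ^ (e.1 i : ℕ))
            (fun j => g₂ j ^ (e.2 j : ℕ))) : GDelta p (Sum.elim pv qv))) := by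
      funext e
      show (QuotientGroup.mk (fun s => pairU g₁ g₂ s ^ ((ψ e s : Fin _) : ℕ)) :
        GDelta p (Sum.elim pv qv)) = _
      congr 1
      funext s
      rcases s with i | j <;> rfl
    rw [← h2]
    exact h1
  exact hd _ _ hbij

example : Fermat.Agent.S38.IA.Hecke.IAFreeStatement_T := iaFree_T_h681

/-- The primes of Ribet's level of type `ty` lie in `Smin ∪ Piv`. -/
theorem h681_mem_of_dvd_ribetLevelT {p : ℕ} (hp : p.Prime) {ty : PType} {Smin Piv : Finset ℕ}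
    (hpS : p ∈ Smin) (hS : ∀ q ∈ Smin, q.Prime) (hP : ∀ q ∈ Piv, q.Prime) {q : ℕ}
    (hq : q.Prime) (hdvd : q ∣ ribetLevelT p ty Smin Piv) : q ∈ (↑(Smin ∪ Piv) : Set ℕ) := by
  rw [ribetLevelT_eq] at hdvd
  rcases (Nat.Prime.dvd_mul hq).mp hdvd with h | h
  · exact h681_mem_of_dvd_ribetLevel hS hP hq h
  · have hqp : q ∣ p := by
      cases ty
      · exact absurd (Nat.dvd_one.mp h) hq.ne_one
      · exact h
      · exact h
    rw [(Nat.prime_dvd_prime_iff_eq hq hp).mp hqp, Finset.mem_coe, Finset.mem_union]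
    exact Or.inl hpS

/-- **IA-NONTRIV of type `ty`**, verbatim. -/
theorem iaNontriv_T_h681 : IANontrivStatement_T := by
  intro p _ _hp3 𝒪 _ _ _ _ _ _ ρbar Smin h ty _hty Piv hPiv _ θ₀ _hθ₀ V₀ hV₀
  exact h681_locPart_free_pos
    (fun _ hq hdvd => h681_mem_of_dvd_ribetLevelT Fact.out h.hpSmin h.hSmin
      (fun a ha => (hPiv a ha).1) hq hdvd) θ₀ V₀ hV₀

example : Fermat.Agent.S38.IA.Hecke.IANontrivStatement_T := iaNontriv_T_h681

end Fermat.Agent.S38.H681
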